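/-
Program MW (S17), height part H.  helper7.  SPECIFICATION, part 1: COMMON OBJECTS.

Design (reports of helper4, helper7, helper8, stmt = S17): all heights are sums over the places
`p ≤ ∞` of `ℚ` of LOCAL terms computed with ONE fixed absolute value `|·|_p` on `ℚ̄` above each `p`
(`QbarAbs`), applied to GALOIS-STABLE configurations of points of the curve; the product formula is
only ever used for rational numbers.  No number fields, no completions, no models.

Contents.
* local toolkit: `supNorm` (from `Hadamard7`), `wedge`, `chord`, `triC`, `IsNiceAbs`;
* `QbarAbs K`: one absolute value of `K` above every place of `ℚ`;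
* on a function field `F / K` (Prelude `AlgebraicCurve.Place`): `evalAt`, `leadAt` (leading
  coefficient w.r.t. a uniformiser), `coordAt` / `tangAt` (projective coordinates and tangent
  vector of a place for a tuple `x` of functions), the local pair function `lamAt`
  (`-log` chordal distance, tangent term on the diagonal), the local pairing `pairAt` on divisors.
-/
import Mathlib
import Fermat.Prelude.Def_AlgebraicCurve_BaseChangeGalois
import Fermat.Agent.MW.Hadamard7

set_option autoImplicit false

open AlgebraicCurve

namespace Fermat.Agent.MW.Spec.Defs7

open Fermat.Agent.MW.Hadamard7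

noncomputable section

/-! ### Local toolkit: a field with one absolute value -/

section Local

variable {K : Type*} [Field K] (v : AbsoluteValue K ℝ)
variable {ι : Type*} [Fintype ι]

/-- The vector of `2 × 2` minors of two coordinate vectors (Plücker vector of the line). -/
def wedge (x y : ι → K) : ι × ι → K := fun ij => x ij.1 * y ij.2 - x ij.2 * y ij.1

/-- The projective (chordal) distance `‖x ∧ y‖ / (‖x‖ ‖y‖)` of two coordinate vectors. -/
def chord (x y : ι → K) : ℝ := supNorm v (wedge x y) / (supNorm v x * supNorm v y)

/-- The triangle constant: `|x₁ + … + x_n| ≤ triC v n · max |x_i|`. -/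
def triC (n : ℕ) : ℝ := by
  classical
  exact if IsNonarchimedean v then 1 else n

/-- The absolute values we allow: nonarchimedean ones, and those induced by a complex embedding.
(For the archimedean ones the Gauss lemma is replaced by Mahler-measure bounds.) -/
def IsNiceAbs : Prop :=
  IsNonarchimedean v ∨ ∃ e : K →+* ℂ, ∀ x, v x = ‖e x‖

end Local

/-! ### One absolute value of `K` above every place of `ℚ` -/

/-- A choice of one absolute value on `K` (think `K = ℚ̄`) above every place of `ℚ`. -/
structure QbarAbs (K : Type*) [Field K] [CharZero K] where
  /-- the absolute value above the prime `p` -/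
  fin : Nat.Primes → AbsoluteValue K ℝ
  /-- the archimedean absolute value -/
  inf : AbsoluteValue K ℝ
  fin_nonarch : ∀ p, IsNonarchimedean (fin p)
  fin_rat : ∀ (p : Nat.Primes) (q : ℚ), fin p (q : K) = (padicNorm p q : ℝ)
  inf_cplx : ∃ e : K →+* ℂ, ∀ x, inf x = ‖e x‖
  finite_ne_one : ∀ x : K, x ≠ 0 → {p : Nat.Primes | fin p x ≠ 1}.Finite

namespace QbarAbs

variable {K : Type*} [Field K] [CharZero K] (A : QbarAbs K)

/-- The places: `none = ∞`, `some p = p`. -/
def abv : Option Nat.Primes → AbsoluteValue K ℝ
  | none => A.inf
  | some p => A.fin p

/-- Sum over all places of a local quantity (finitely supported in all our uses). -/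
def gsum (_A : QbarAbs K) (f : Option Nat.Primes → ℝ) : ℝ := ∑ᶠ p, f p

/-- The (logarithmic, local-sum) height of a multiset of numbers:
`∑_p ∑_{α ∈ S} log⁺ |α|_p`.  For a Galois-stable `S` this is `deg · (absolute Weil height)`. -/
def heightSum (S : Multiset K) : ℝ :=
  A.gsum fun p => (S.map fun α => Real.posLog (A.abv p α)).sum

end QbarAbs

/-! ### Places of a function field: values, leading coefficients, coordinates -/

section Curve

variable {K F : Type*} [Field K] [Field F] [Algebra K F]

/-- The value `f(P) ∈ K` of a function regular at the place `P` (all our places have residue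
field `K`); junk value `0` if there is none. -/
def evalAt (P : Place K F) (f : F) : K := by
  classical
  exact if h : ∃ a : K, P.adicValuation (f - algebraMap K F a) < 1 then h.choose else 0

/-- The leading coefficient of `f` at `P` with respect to the uniformiser `t`:
the value at `P` of `f / t ^ ord_P f`. -/
def leadAt (P : Place K F) (t f : F) : K := evalAt P (f * t ^ (-(P.ord f)))

variable {n : ℕ}

/-- The minimum of the orders at `P` of the functions `x 0, …, x n`. -/
def minOrd (P : Place K F) (x : Fin (n + 1) → F) : ℤ :=
  Finset.univ.inf' Finset.univ_nonempty fun a => P.ord (x a)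

/-- Projective coordinates of the place `P` for the map `(x 0 : … : x n)`, normalised by the
uniformiser `t`: the values at `P` of `x a / t ^ minOrd`. -/
def coordAt (P : Place K F) (t : F) (x : Fin (n + 1) → F) : Fin (n + 1) → K :=
  fun a => evalAt P (x a * t ^ (-(minOrd P x)))

/-- The tangent vector at `P`: the values at `P` of `(x a / t ^ minOrd - coordAt a) / t`. -/
def tangAt (P : Place K F) (t : F) (x : Fin (n + 1) → F) : Fin (n + 1) → K :=
  fun a => evalAt P ((x a * t ^ (-(minOrd P x)) - algebraMap K F (coordAt P t x a)) * t⁻¹)

/-- The local pair function: `-log` of the chordal distance of `P` and `Q` for `P ≠ Q`, and the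
tangent term `-log (‖q ∧ q'‖ / ‖q‖²)` on the diagonal.  `t P` is the chosen uniformiser at `P`. -/
def lamAt (v : AbsoluteValue K ℝ) (x : Fin (n + 1) → F) (t : Place K F → F)
    (P Q : Place K F) : ℝ := by
  classical
  exact if P = Q then
      -Real.log (supNorm v (wedge (coordAt P (t P) x) (tangAt P (t P) x)) /
        supNorm v (coordAt P (t P) x) ^ 2)
    else -Real.log (chord v (coordAt P (t P) x) (coordAt Q (t Q) x))

/-- The local pairing of two divisors: `∑ D(P) E(Q) λ_v(P, Q)` (diagonal terms included). -/
def pairAt (v : AbsoluteValue K ℝ) (x : Fin (n + 1) → F) (t : Place K F → F)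
    (D E : Divisor K F) : ℝ :=
  D.sum fun P a => E.sum fun Q b => (a : ℝ) * (b : ℝ) * lamAt v x t P Q

/-- The `ℓ¹`-norm of a divisor. -/
def normOne (D : Divisor K F) : ℤ := D.sum fun _ a => |a|

/-- The divisor of a nonzero function (as a `Prop`: `D = div f`). -/
def IsDivOf (D : Divisor K F) (f : F) : Prop := ∀ P : Place K F, D P = P.ord f

end Curve

end

end Fermat.Agent.MW.Spec.Defs7
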