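/-
Program MW (S17), height part H.  helper7.  SPECIFICATION, part 2: CONTRACTS.

Every hard input of the height part is a `def … : Prop` below; a brick is delivered as a theorem
`foo : Contract7.<Name> …` in its own file.  Objects are those of `Spec/Defs7`.

Setting.  `F / K` a function field (Prelude `AlgebraicCurve.Place K F`, all places of degree one),
`Γ` a group acting semilinearly (`γ : Γ →* SemilinearAut K F`; for S17: `K = ℚ̄`, `Γ = Gal(ℚ̄/ℚ)`,
`γ = arithmeticGalois`), `x : Fin (n+1) → F` the embedding tuple (a `Γ`-fixed basis of `L(m·∞)`,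
`x 0 = 1`), `t : Place K F → F` an equivariant system of uniformisers.

* `UDLocal v x t d C`  : THE UNIFORM DECOMPOSITION THEOREM at one absolute value, in
  leading-coefficient form: for `f ≠ 0` of degree `≤ d` the function
  `Q ↦ log |f^reg(Q)|_v + ∑_P ord_P(f) λ_v(P, Q)` (diagonal term included) varies by at most
  `log C` over all places `Q`.
* `UDAll A x t d`      : `UDLocal` at all places of `ℚ` with constants `= 1` for almost all `p`.
* `UDGlobal …`         : the global consequence `B(div f, E) = deg E · c(f) + O(‖E‖₁)` for rational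
  `f` and stable `E` (no disjointness hypothesis).
-/
import Mathlib
import Fermat.Agent.MW.Spec.Defs7

set_option autoImplicit false

open AlgebraicCurve

namespace Fermat.Agent.MW.Spec.Contract7

open Fermat.Agent.MW.Spec.Defs7

noncomputable section

variable {K F : Type*} [Field K] [Field F] [Algebra K F]
variable {Γ : Type*} [Group Γ] (γ : Γ →* SemilinearAut K F)

/-- A `Γ`-stable divisor. -/
def IsStable (D : Divisor K F) : Prop := ∀ σ : Γ, γ σ • D = D

/-- A `Γ`-fixed ("rational") function. -/
def IsRational (f : F) : Prop := ∀ σ : Γ, γ σ • f = f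

/-- An equivariant system of uniformisers. -/
def IsUnifSystem (t : Place K F → F) : Prop :=
  (∀ P : Place K F, P.ord (t P) = 1) ∧ ∀ (σ : Γ) (P : Place K F), t (γ σ • P) = γ σ • t P

/-- The degree of the positive part of a divisor (the degree of `f` when `D = div f`). -/
def posDeg (D : Divisor K F) : ℤ := D.sum fun _ a => max a 0

variable {n : ℕ}

/-- `Φ_v(f; Q) = log |f^reg(Q)|_v + ∑_P D(P) λ_v(P, Q)` where `D = div f`. -/
def phiAt (v : AbsoluteValue K ℝ) (x : Fin (n + 1) → F) (t : Place K F → F) (f : F)
    (D : Divisor K F) (Q : Place K F) : ℝ :=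
  Real.log (v (leadAt Q (t Q) f)) + pairAt v x t D (Finsupp.single Q 1)

/-- **Uniform decomposition, local form** (the core curve-level theorem). -/
def UDLocal (v : AbsoluteValue K ℝ) (x : Fin (n + 1) → F) (t : Place K F → F) (d : ℤ)
    (C : ℝ) : Prop :=
  ∀ (f : F) (D : Divisor K F), f ≠ 0 → IsDivOf D f → posDeg D ≤ d →
    ∀ Q Q' : Place K F, |phiAt v x t f D Q - phiAt v x t f D Q'| ≤ Real.log C

section Global

variable [CharZero K] (A : QbarAbs K)

/-- **Uniform decomposition at all places**, constants `1` for almost all primes. -/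
def UDAll (x : Fin (n + 1) → F) (t : Place K F → F) (d : ℤ) : Prop :=
  ∃ C : Option Nat.Primes → ℝ, (∀ p, 1 ≤ C p) ∧ {p | C p ≠ 1}.Finite ∧
    ∀ p, UDLocal (A.abv p) x t d (C p)

/-- The global pairing of two divisors: the sum over all places of the local pairings. -/
def pair (x : Fin (n + 1) → F) (t : Place K F → F) (D E : Divisor K F) : ℝ :=
  A.gsum fun p => pairAt (A.abv p) x t D E

/-- The global constant `c(f) = ∑_p Φ_p(f; ∞)` (base point `∞`). -/
def cOf (x : Fin (n + 1) → F) (t : Place K F → F) (inf : Place K F) (f : F)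
    (D : Divisor K F) : ℝ :=
  A.gsum fun p => phiAt (A.abv p) x t f D inf

/-- **Uniform decomposition, global form**: `B(div f, E) = deg E · c(f) + O(‖E‖₁)` for rational
`f` of degree `≤ d` and stable `E`; shared points allowed (diagonal terms included). -/
def UDGlobal (x : Fin (n + 1) → F) (t : Place K F → F) (inf : Place K F) (d : ℤ)
    (C : ℝ) : Prop :=
  ∀ (f : F) (D E : Divisor K F), f ≠ 0 → IsRational γ f → IsDivOf D f → posDeg D ≤ d →
    IsStable γ E →
    |pair A x t D E - (Divisor.degree E : ℝ) * cOf A x t inf f D| ≤ C * (normOne E : ℝ)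

end Global

end

end Fermat.Agent.MW.Spec.Contract7
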