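/-
Program MW-H (S17), helper7 (architect).  SPECIFICATION, part 3: THE BRICKS AS `Prop`s.

Pinned plan: team report #590 (stmt = S17, kind = plan).  A brick `X` is delivered as a theorem
`… : Bricks7.X …` (or, for the existence bricks, a `theorem`/`def` of exactly the stated type).
If a contract below is false, awkward or too weak for its consumer, tell helper7 at once
(stmt = 'S17', kind = 'contract'); it will be versioned, never silently changed.

Conventions.
* UNIFORM CONSTANTS.  Every local estimate holds for every "nice" absolute value `v` (`IsNiceAbs`: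
  nonarchimedean, or induced by a complex embedding) with a constant `C v`, where `C` is TAME
  (`IsTameConst`): `1 ≤ C v` always, and `C v = 1` as soon as `v` is nonarchimedean and takes the
  value `1` on a fixed finite set of nonzero numbers.  Hence `C (A.fin p) = 1` for almost all `p`.
* Local toolkit objects (`supNorm`, `wedge`, `chord`, `triC`) are those of `Spec/Defs7`.
-/
import Mathlib
import Fermat.Agent.MW.Spec.Contract7
import Fermat.Agent.X0.FFDefs

set_option autoImplicit false

open AlgebraicCurve

namespace Fermat.Agent.MW.Spec.Bricks7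

open Fermat.Agent.MW.Hadamard7 Fermat.Agent.MW.Spec.Defs7 Fermat.Agent.MW.Spec.Contract7

noncomputable section

/-! ### Tame constants -/

/-- A family of constants, one for each absolute value, equal to `1` at almost all places. -/
def IsTameConst {K : Type*} [Field K] (C : AbsoluteValue K ℝ → ℝ) : Prop :=
  ∃ S : Finset K, (∀ a ∈ S, a ≠ 0) ∧ ∀ v : AbsoluteValue K ℝ,
    1 ≤ C v ∧ (IsNonarchimedean v → (∀ a ∈ S, v a = 1) → C v = 1)

/-! ### L1 (Mathlib only): chordal triangle inequality -/

/-- **L1a**: the chordal distance satisfies the (ultrametric, up to `triC v 3`) triangle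
inequality.  Proof: `q_k (p∧r)_{ij} = (p∧q)_{ik} r_j - (p∧q)_{jk} r_i + p_k (q∧r)_{ij}`. -/
def ChordTriangle : Prop :=
  ∀ {K : Type} [Field K] (v : AbsoluteValue K ℝ) {ι : Type} [Fintype ι] (p q r : ι → K),
    p ≠ 0 → q ≠ 0 → r ≠ 0 →
    chord v p r ≤ triC v 3 * max (chord v p q) (chord v q r)

/-! ### L2 (Mathlib only): pencils in general position -/

section GenPos

variable {K : Type*} [Field K] {ι : Type*} [Fintype ι]

/-- The 2-form `ξ ∧ η` evaluated on `w : ι × ι → K` (so that on `w = wedge p q` it is
`ξ(p) η(q) - η(p) ξ(q)` when `w` is the vector of minors). -/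
def omega (ξ η : ι → K) (w : ι × ι → K) : K := ∑ i, ∑ j, ξ i * η j * w (i, j)

/-- A family of pencils `(ξ a, η a)` is in general position with constants `C`: every
antisymmetric `w` is `C`-small against fewer than `(card ι choose 2)` of the 2-forms `ξ a ∧ η a`.
(For `w = 0` the condition is void.) -/
def IsGenPos {A : ℕ} (ξ η : Fin A → ι → K) (C : AbsoluteValue K ℝ → ℝ) : Prop :=
  ∀ v : AbsoluteValue K ℝ, IsNiceAbs v → ∀ w : ι × ι → K, (∀ i j, w (i, j) = -w (j, i)) →
    (Finset.univ.filter fun a : Fin A => C v * v (omega (ξ a) (η a) w) < supNorm v w).card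
      < (Fintype.card ι).choose 2

/-- **L2**: over a field of characteristic zero there are arbitrarily large families of pencils
with RATIONAL coefficients in general position, with tame constants. -/
def GenPosExists : Prop :=
  ∀ {K : Type} [Field K] [CharZero K] {ι : Type} [Fintype ι], 2 ≤ Fintype.card ι → ∀ (A : ℕ),
    ∃ (ξ η : Fin A → ι → ℚ) (C : AbsoluteValue K ℝ → ℝ), IsTameConst C ∧
      IsGenPos (fun a i => ((ξ a i : ℚ) : K)) (fun a i => ((η a i : ℚ) : K)) C

end GenPos

/-! ### L3 (Mathlib only): Gauss lemma / Mahler bound for binary forms -/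

/-- **L3**: for the polynomial `P = κ ∏_k (μ_k X - λ_k)` (dehomogenised binary form) the sup norm
of the coefficients is comparable, within a constant depending only on `m` and on whether `v` is
archimedean, to `|κ| ∏_k max(|λ_k|, |μ_k|)`. -/
def GaussBinary : Prop :=
  ∀ (m : ℕ), ∃ c : ℝ, 1 ≤ c ∧ ∀ {K : Type} [Field K] (v : AbsoluteValue K ℝ), IsNiceAbs v →
    ∀ (κ : K) (lam mu : Fin m → K),
      let P : Polynomial K :=
        Polynomial.C κ * ∏ k, (Polynomial.C (mu k) * Polynomial.X - Polynomial.C (lam k))
      let N : ℝ := ⨆ j : Fin (m + 1), v (P.coeff j)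
      let R : ℝ := v κ * ∏ k, max (v (lam k)) (v (mu k))
      (IsNonarchimedean v → N = R) ∧ N ≤ c * R ∧ R ≤ c * N

/-! ### S1-S3 (Mathlib only): the absolute values of `ℚ̄`, product formula, Northcott -/

/-- **S1a**: existence of the family of absolute values on `ℚ̄`. -/
def QbarAbsExists : Prop := Nonempty (QbarAbs (AlgebraicClosure ℚ))

/-- **S1b**: product formula for rational numbers, in `gsum` form (any `QbarAbs`). -/
def ProductFormula : Prop :=
  ∀ {K : Type} [Field K] [CharZero K] (A : QbarAbs K) (q : ℚ), q ≠ 0 →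
    A.gsum (fun p => Real.log (A.abv p (q : K))) = 0

/-- **S3**: a Galois-stable multiset of algebraic numbers has a rational product. -/
def StableProduct : Prop :=
  ∀ S : Multiset (AlgebraicClosure ℚ),
    (∀ σ : AlgebraicClosure ℚ ≃ₐ[ℚ] AlgebraicClosure ℚ, S.map σ = S) →
    S.prod ∈ (algebraMap ℚ (AlgebraicClosure ℚ)).range

/-- **S2**: Northcott for Galois-stable multisets of bounded cardinality and height sum. -/
def StableNorthcott : Prop :=
  ∀ (A : QbarAbs (AlgebraicClosure ℚ)) (r : ℕ) (B : ℝ),
    {S : Multiset (AlgebraicClosure ℚ) | S.card = r ∧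
      (∀ σ : AlgebraicClosure ℚ ≃ₐ[ℚ] AlgebraicClosure ℚ, S.map σ = S) ∧
      A.heightSum S ≤ B}.Finite

/-! ### F1 (Mathlib only): the formal quadratic layer -/

/-- **F1**: abstract form of "the self-pairing of bounded representatives is quasi-quadratic".
`Z` = stable divisors of degree `0`, `cl` = class map, `rep` = bounded representatives,
`hker` = the consequence of `UDGlobal` for principal divisors of bounded norm. -/
def FormalQuadratic : Prop :=
  ∀ {Z G : Type} [AddCommGroup Z] [AddCommGroup G] (B : Z → Z → ℝ) (nrm : Z → ℝ)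
    (cl : Z →+ G) (rep : G → Z) (R C : ℝ),
    (∀ a b, B a b = B b a) → (∀ a b c, B (a + b) c = B a c + B b c) →
    (∀ a, 0 ≤ nrm a) → (∀ a b, nrm (a + b) ≤ nrm a + nrm b) → (∀ a, nrm (-a) = nrm a) →
    (∀ x, cl (rep x) = x) → (∀ x, nrm (rep x) ≤ R) →
    (∀ p e : Z, cl p = 0 → nrm p ≤ 3 * R → nrm e ≤ 3 * R → |B p e| ≤ C) →
    ∀ x y : G, |(-B (rep (x + y)) (rep (x + y))) + (-B (rep (x - y)) (rep (x - y)))
        - 2 * ((-B (rep x) (rep x)) + (-B (rep y) (rep y)))| ≤ 6 * C

/-! ### The master theorem with tame constants -/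

section Master

variable {K F : Type*} [Field K] [Field F] [Algebra K F] {n : ℕ}

/-- **U (master theorem)**: `UDLocal` for every nice absolute value, with tame constants. -/
def UDTame (x : Fin (n + 1) → F) (t : Place K F → F) (d : ℤ) : Prop :=
  ∃ C : AbsoluteValue K ℝ → ℝ, IsTameConst C ∧
    ∀ v : AbsoluteValue K ℝ, IsNiceAbs v → UDLocal v x t d (C v)

end Master

/-! ### E1 (function field): values and leading coefficients at places -/

section E1

variable (K F : Type*) [Field K] [Field F] [Algebra K F]

/-- **E1a**: `evalAt P f` is the value of `f` at `P` (all places of degree one). -/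
def EvalSpec : Prop :=
  ∀ (P : Place K F) (f : F), P.adicValuation f ≤ 1 →
    P.adicValuation (f - algebraMap K F (evalAt P f)) < 1

/-- **E1b**: leading coefficients are multiplicative and nonzero. -/
def LeadMul : Prop :=
  ∀ (P : Place K F) (t f g : F), P.ord t = 1 → f ≠ 0 → g ≠ 0 →
    leadAt P t (f * g) = leadAt P t f * leadAt P t g ∧ leadAt P t f ≠ 0

/-- **E1c**: values are equivariant for semilinear automorphisms. -/
def EvalEquivariant : Prop :=
  ∀ (g : SemilinearAut K F) (P : Place K F) (f : F),
    evalAt (g • P) (g • f) = SemilinearAut.baseAut g (evalAt P f)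

end E1

/-! ### N1 (function field): norms and fibres -/

section N1

open Fermat.Agent.X0.FF IntermediateField

variable (K F : Type*) [Field K] [Field F] [Algebra K F]

/-- **N1**: for a generator `u` and `f` without poles outside the poles of `u`, the norm of `f`
to `K(u)` is a polynomial in `u` whose order of vanishing at `u = c` is the sum of the orders of
`f` along the fibre `u = c`. -/
def NormFibre : Prop :=
  ∀ (u f : F) (hu : IsGen K u), f ≠ 0 →
    (∀ P : Place K F, 0 ≤ P.ord u → 0 ≤ P.ord f) →
    haveI := hu.finite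
    ∃ N : Polynomial K, N ≠ 0 ∧
      algebraMap K⟮u⟯ F (Algebra.norm K⟮u⟯ f) = Polynomial.aeval u N ∧
      ∀ c : K, (N.rootMultiplicity c : ℤ) =
        ∑ᶠ (P : Place K F) (_ : 0 < P.ord (u - algebraMap K F c)), P.ord f

end N1

end

end Fermat.Agent.MW.Spec.Bricks7
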