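/-
Program MW-H (S17), helper7 (architect).  SPECIFICATION, part 4: THE GLOBAL BRICKS AS `Prop`s.

Pinned plan: team report #590 (stmt = S17, kind = plan).  Part 3 (`Spec/Bricks7`) holds the local,
Mathlib-only and function-field bricks; this file holds the standing global data (`HSetup`) and
the contracts whose conjunction gives `Top7.HeightMain N` (assembled in `Spec/Assemble7`).

Standing data (`HSetup F`): `K = ℚ̄ = AlgebraicClosure ℚ`, `Γ = Gal(ℚ̄/ℚ)` acting semilinearly on
the function field `F / ℚ̄` through `γ`; a `Γ`-fixed place `inf`; the embedding tuple `x` = a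
`Γ`-fixed basis of `L(m · inf)`, `x 0 = 1`, `m = 2 m₀`, `m₀ ≥ 2 g + 1`; an equivariant system of
uniformisers `t`; one absolute value of `ℚ̄` above every place of `ℚ` (`A`).

Heights.  `S.pair D E` = global pairing (sum over all places of `ℚ` of the local pairings,
diagonal = tangent terms included); `S.hn D = S.pair inf D` (height relative to the divisor `inf`);
`S.kap D` = linear extension of the diagonal `P ↦ S.pair P P`; for a class `c ∈ Pic⁰`:
`S.minRep c` = the unique effective divisor `D` of minimal degree `r` with `[D - r·inf] = c`,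
`S.qOf c = - pair (D - r·inf) (D - r·inf)`, `S.hnOf c = hn D`.
-/
import Mathlib
import Fermat.Prelude.Def_AlgebraicCurve_Repartitions
import Fermat.Prelude.Def_AlgebraicCurve_CanonicalDivisor
import Fermat.Agent.MW.Spec.Bricks7

set_option autoImplicit false

open AlgebraicCurve

namespace Fermat.Agent.MW.Spec.Bricks7b

open Fermat.Agent.MW.Hadamard7 Fermat.Agent.MW.Spec.Defs7 Fermat.Agent.MW.Spec.Contract7
open Fermat.Agent.MW.Spec.Bricks7 Fermat.Agent.X0.FF

noncomputable section

/-- `ℚ̄`. -/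
abbrev Qb : Type := AlgebraicClosure ℚ

/-- `Gal(ℚ̄/ℚ)`. -/
abbrev GQ : Type := Qb ≃ₐ[ℚ] Qb

/-! ### The standing data -/

/-- The standing data of the height machine for a function field `F / ℚ̄`. -/
structure HSetup (F : Type) [Field F] [Algebra Qb F] [HasCanonicalDivisor (K := Qb) (F := F)] where
  /-- the semilinear Galois action -/
  γ : GQ →* SemilinearAut Qb F
  /-- one absolute value of `ℚ̄` above every place of `ℚ` -/
  A : QbarAbs Qb
  /-- a separating element -/
  u : F
  /-- the rational base point -/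
  inf : Place Qb F
  /-- half of the degree of the embedding -/
  m₀ : ℕ
  /-- projective dimension of the embedding -/
  n : ℕ
  /-- the embedding tuple -/
  x : Fin (n + 1) → F
  /-- the uniformisers -/
  t : Place Qb F → F
  base : ∀ (σ : GQ) (a : Qb), SemilinearAut.baseAut (γ σ) a = σ a
  smooth : ∀ f : F, ∃ E : IntermediateField ℚ Qb, FiniteDimensional ℚ E ∧
    ∀ σ : GQ, (∀ e ∈ E, σ e = e) → γ σ • f = f
  gen : IsGen Qb u
  u_fixed : ∀ σ : GQ, γ σ • u = u
  inf_fixed : ∀ σ : GQ, γ σ • inf = inf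
  unif : IsUnifSystem γ t
  m₀_large : 2 * genus Qb F + 1 ≤ m₀
  x_fixed : ∀ (σ : GQ) (a : Fin (n + 1)), γ σ • x a = x a
  x_zero : x 0 = 1
  x_indep : LinearIndependent Qb x
  x_span : Submodule.span Qb (Set.range x) =
    riemannRochSpace (K := Qb) (F := F) (Finsupp.single inf ((2 * m₀ : ℕ) : ℤ))

namespace HSetup

variable {F : Type} [Field F] [Algebra Qb F] [HasCanonicalDivisor (K := Qb) (F := F)]
variable (S : HSetup F)

/-- The global pairing. -/
def pair (D E : Divisor Qb F) : ℝ := Contract7.pair S.A S.x S.t D E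

/-- The height relative to the divisor `inf`. -/
def hn (D : Divisor Qb F) : ℝ := S.pair (Finsupp.single S.inf 1) D

/-- The linear extension of the diagonal `P ↦ pair P P`. -/
def kap (D : Divisor Qb F) : ℝ :=
  D.sum fun P a => (a : ℝ) * S.pair (Finsupp.single P 1) (Finsupp.single P 1)

/-- A `Γ`-fixed class. -/
def IsFixed (c : Pic0 Qb F) : Prop := ∀ σ : GQ, S.γ σ • c = c

/-- `D` is effective and `[D - deg D · inf] = c`. -/
def IsRepOf (c : Pic0 Qb F) (D : Divisor Qb F) : Prop :=
  0 ≤ D ∧ ∃ a : Divisor.degZero (K := Qb) (F := F),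
    (a : Divisor Qb F) = D - Finsupp.single S.inf (Divisor.degree D) ∧ Pic0.mk a = c

/-- `D` is THE effective representative of minimal degree of the class `c`. -/
def IsMinRep (c : Pic0 Qb F) (D : Divisor Qb F) : Prop :=
  S.IsRepOf c D ∧ ∀ D' : Divisor Qb F, S.IsRepOf c D' →
    Divisor.degree D ≤ Divisor.degree D' ∧ (Divisor.degree D' = Divisor.degree D → D' = D)

/-- The minimal representative (junk value `0` if there is none). -/
def minRep (c : Pic0 Qb F) : Divisor Qb F := by
  classical
  exact if h : ∃ D, S.IsMinRep c D then h.choose else 0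

/-- The degree-zero divisor `D - deg D · inf` attached to `D`. -/
def zeroPart (D : Divisor Qb F) : Divisor Qb F := D - Finsupp.single S.inf (Divisor.degree D)

/-- The quasi-quadratic height of a class. -/
def qOf (c : Pic0 Qb F) : ℝ := -S.pair (S.zeroPart (S.minRep c)) (S.zeroPart (S.minRep c))

/-- The naive height of a class. -/
def hnOf (c : Pic0 Qb F) : ℝ := S.hn (S.minRep c)

/-! ### Top contracts: their conjunction is `HeightMain` -/

/-- **QP**: the parallelogram law up to a constant, on fixed classes. -/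
def QuasiParallelogram : Prop :=
  ∃ C : ℝ, ∀ c c' : Pic0 Qb F, S.IsFixed c → S.IsFixed c' →
    |S.qOf (c + c') + S.qOf (c - c') - 2 * (S.qOf c + S.qOf c')| ≤ C

/-- **P3**: positivity on all Brill-Noether strata. -/
def Positivity : Prop :=
  ∃ C : ℝ, ∀ c : Pic0 Qb F, S.IsFixed c → S.hnOf c - C ≤ S.qOf c

/-- **T1**: Northcott for the naive height. -/
def NorthcottHn : Prop :=
  ∀ B : ℝ, {c : Pic0 Qb F | S.IsFixed c ∧ S.hnOf c ≤ B}.Finite

/-! ### Second layer -/

/-- **P1a**: minimal representatives exist, have degree `≤ g`, avoid `inf`, have `ℓ = 1`. -/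
def MinRepExists : Prop :=
  ∀ c : Pic0 Qb F, ∃ D : Divisor Qb F, S.IsMinRep c D ∧
    Divisor.degree D ≤ (genus Qb F : ℤ) ∧ D S.inf = 0 ∧
    Module.finrank Qb (riemannRochSpace (K := Qb) (F := F) D) = 1

/-- **P1b**: the minimal representative of a fixed class is stable. -/
def MinRepStable : Prop :=
  ∀ c : Pic0 Qb F, S.IsFixed c → IsStable S.γ (S.minRep c)

/-- **P1c**: a stable principal divisor has a rational generator. -/
def RationalGenerator : Prop :=
  ∀ (p : Divisor Qb F) (f : F), f ≠ 0 → IsDivOf p f → IsStable S.γ p →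
    ∃ f' : F, f' ≠ 0 ∧ IsDivOf p f' ∧ IsRational S.γ f'

/-- **D1**: Galois descent for finite-dimensional stable subspaces of `F`. -/
def GaloisDescent : Prop :=
  ∀ W : Submodule Qb F, FiniteDimensional Qb W → (∀ (σ : GQ) (f : F), f ∈ W → S.γ σ • f ∈ W) →
    ∃ b : Fin (Module.finrank Qb W) → F, (∀ (σ : GQ) i, S.γ σ • b i = b i) ∧
      LinearIndependent Qb b ∧ Submodule.span Qb (Set.range b) = W

/-- **U** (the master theorem, for the standing data). -/
def MasterUD : Prop := ∀ d : ℤ, UDTame S.x S.t d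

/-- **G1**: the global form of the uniform decomposition theorem. -/
def GlobalUD : Prop := ∀ d : ℤ, ∃ C : ℝ, UDGlobal S.γ S.A S.x S.t S.inf d C

/-- **E3**: the embedding separates places and tangent vectors (so that `lamAt` is never junk). -/
def VeryAmple : Prop :=
  (∀ P : Place Qb F, coordAt P (S.t P) S.x ≠ 0) ∧
  (∀ P Q : Place Qb F, P ≠ Q → wedge (coordAt P (S.t P) S.x) (coordAt Q (S.t Q) S.x) ≠ 0) ∧
  (∀ P : Place Qb F, wedge (coordAt P (S.t P) S.x) (tangAt P (S.t P) S.x) ≠ 0)

/-- **G0**: the local pairings of two fixed divisors vanish at almost all places (so that the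
global sums `gsum` are honest finite sums). -/
def PairFiniteSupport : Prop :=
  ∀ D E : Divisor Qb F, {p | pairAt (S.A.abv p) S.x S.t D E ≠ 0}.Finite

/-- **A2**: heights relative to divisors of the same degree are `ε`-equivalent. -/
def EpsComparison : Prop :=
  ∀ (E : Divisor Qb F), IsStable S.γ E → ∀ (d₀ : ℤ) (ε : ℝ), 0 < ε → ∃ C : ℝ,
    ∀ D : Divisor Qb F, 0 ≤ D → IsStable S.γ D → Divisor.degree D ≤ d₀ → D S.inf = 0 →
      |S.pair E D - (Divisor.degree E : ℝ) * S.hn D| ≤ ε * |S.hn D| + C

/-- **A0**: the naive height is bounded below. -/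
def HnLower : Prop :=
  ∀ d₀ : ℤ, ∃ C : ℝ, ∀ D : Divisor Qb F, 0 ≤ D → Divisor.degree D ≤ d₀ → D S.inf = 0 →
    -C ≤ S.hn D

/-- **AD** (adjunction, lower half): `- kap D ≥ (2g - 2 - ε) hn D - C`. -/
def AdjunctionLower : Prop :=
  ∀ (d₀ : ℤ) (ε : ℝ), 0 < ε → ∃ C : ℝ,
    ∀ D : Divisor Qb F, 0 ≤ D → IsStable S.γ D → Divisor.degree D ≤ d₀ → D S.inf = 0 →
      (2 * (genus Qb F : ℝ) - 2 - ε) * S.hn D - C ≤ -S.kap D

/-- **HD** (Hadamard, all strata): for an effective stable `D` of degree `r ≤ g` with `ℓ(D) = 1`,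
`pair D D - kap D ≤ 2 (g + r - 2 + ε) hn D + C`. -/
def HadamardUpper : Prop :=
  ∀ (ε : ℝ), 0 < ε → ∃ C : ℝ,
    ∀ D : Divisor Qb F, 0 ≤ D → IsStable S.γ D → Divisor.degree D ≤ (genus Qb F : ℤ) →
      D S.inf = 0 → Module.finrank Qb (riemannRochSpace (K := Qb) (F := F) D) = 1 →
      S.pair D D - S.kap D ≤
        2 * ((genus Qb F : ℝ) + (Divisor.degree D : ℝ) - 2 + ε) * S.hn D + C

/-- **T1a**: the coordinates of a point are bounded by its naive height (from `U`, easy half). -/
def CoordUpper : Prop :=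
  ∀ d₀ : ℤ, ∃ C : ℝ, ∀ D : Divisor Qb F, 0 ≤ D → IsStable S.γ D → Divisor.degree D ≤ d₀ →
    D S.inf = 0 →
    (S.A.gsum fun p => D.sum fun P a => (a : ℝ) *
      Real.log (supNorm (S.A.abv p) (coordAt P (S.t P) S.x))) ≤
        ((2 * S.m₀ : ℕ) : ℝ) * S.hn D + C

end HSetup

/-! ### Function-field bricks for a general constant field -/

section FF

variable (K F : Type) [Field K] [Field F] [Algebra K F] [HasCanonicalDivisor (K := K) (F := F)]

/-- **R1**: `L(k m · inf) = L(m · inf)^k` for `m ≥ 2g + 1` (pencil trick). -/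
def PowerSurj : Prop :=
  ∀ (u : F), IsGen K u → ∀ (inf : Place K F) (m : ℕ), 2 * genus K F + 1 ≤ m → ∀ k : ℕ,
    riemannRochSpace (K := K) (F := F) (Finsupp.single inf ((k * m : ℕ) : ℤ)) =
      (riemannRochSpace (K := K) (F := F) (Finsupp.single inf ((m : ℕ) : ℤ))) ^ k

/-- **E2**: every point of the projective closure of the image curve comes from a place. -/
def ConePoints : Prop :=
  ∀ (u : F), IsGen K u → ∀ {n : ℕ} (x : Fin (n + 1) → F) (t : Place K F → F),
    (∀ P : Place K F, P.ord (t P) = 1) → x ≠ 0 → ∀ y : Fin (n + 1) → K, y ≠ 0 →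
    (∀ p : MvPolynomial (Fin (n + 1)) K, (∃ k : ℕ, p.IsHomogeneous k) →
      MvPolynomial.aeval x p = 0 → MvPolynomial.eval y p = 0) →
    ∃ (Q : Place K F) (c : K), c ≠ 0 ∧ y = c • coordAt Q (t Q) x

/-- **P2**: auxiliary divisors: an effective `D` of degree `r < g` with `ℓ(D) = 1` can be completed
inside any set of more than `2g - 2` places. -/
def AuxPoint : Prop :=
  ∀ (u : F), IsGen K u → ∀ (D : Divisor K F), 0 ≤ D →
    Divisor.degree D < (genus K F : ℤ) → Module.finrank K (riemannRochSpace (K := K) (F := F) D) = 1 →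
    ∀ T : Finset (Place K F), 2 * genus K F - 2 < T.card →
      ∃ R ∈ T, Module.finrank K (riemannRochSpace (K := K) (F := F) (D + Finsupp.single R 1)) = 1

end FF

end

end Fermat.Agent.MW.Spec.Bricks7b
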