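/-
Program MW-H (S17), helper7 (architect).  ASSEMBLY, top layer.

`Top7.HeightMain N` from the three top contracts of `Spec/Bricks7b` for any standing data `S` on
the modular function field whose Galois action is the arithmetic one.
-/
import Mathlib
import Fermat.Agent.MW.Top7
import Fermat.Agent.MW.Spec.Bricks7b

set_option autoImplicit false

open AlgebraicCurve ModularCurve

namespace Fermat.Agent.MW.Spec.Assemble7

open Fermat.Agent.MW.Spec.Bricks7b Fermat.Agent.MW.Top7

/-- A real function which is bounded below on the complement of a finite set is bounded below. -/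
theorem exists_lower_bound_of_finite {α : Type*} (q : α → ℝ) (T : Set α) (hT : T.Finite) (C : ℝ)
    (h : ∀ a, a ∉ T → -C ≤ q a) : ∃ C' : ℝ, ∀ a, -C' ≤ q a := by
  obtain ⟨b, hb⟩ := (hT.image q).bddBelow
  refine ⟨max C (-b), fun a => ?_⟩
  by_cases ha : a ∈ T
  · have h1 : b ≤ q a := hb ⟨a, ha, rfl⟩
    have h2 : -max C (-b) ≤ b := by
      have := le_max_right C (-b)
      linarith
    linarith
  · have h1 := h a ha
    have := le_max_left C (-b)
    linarith

/-- **Top assembly**: `HeightMain N` from `QP`, `P3`, `T1`. -/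
theorem heightMain_of_top (N : ℕ)
    [HasCanonicalDivisor (K := Qb) (F := ↥(modularFunctionFieldBar N))]
    (S : HSetup ↥(modularFunctionFieldBar N))
    (hγ : S.γ = arithmeticGalois (modularFunctionFieldFull N))
    (hQP : S.QuasiParallelogram) (hP : S.Positivity) (hN : S.NorthcottHn) :
    HeightMain N := by
  obtain ⟨C1, hC1⟩ := hQP
  obtain ⟨C2, hC2⟩ := hP
  -- fixed classes
  have hfix : ∀ x : ↥(JQ N), S.IsFixed (x : JZero N) := by
    intro x σ
    rw [hγ]
    exact x.2 σ
  -- `q` is bounded below on fixed classes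
  obtain ⟨C3, hC3⟩ : ∃ C3 : ℝ, ∀ x : ↥(JQ N), -C3 ≤ S.qOf (x : JZero N) := by
    have hT : {x : ↥(JQ N) | S.hnOf (x : JZero N) ≤ 0}.Finite := by
      have := hN 0
      refine Set.Finite.of_injOn (f := fun x : ↥(JQ N) => (x : JZero N)) ?_
        (fun a _ b _ hab => Subtype.ext hab) this
      intro x hx
      exact ⟨hfix x, hx⟩
    refine exists_lower_bound_of_finite (fun x : ↥(JQ N) => S.qOf (x : JZero N)) _ hT C2 ?_
    intro x hx
    have h1 := hC2 (x : JZero N) (hfix x)
    have h2 : 0 < S.hnOf (x : JZero N) := not_le.mp hx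
    linarith
  refine ⟨fun x => S.qOf (x : JZero N) + C3, fun x => ?_, ⟨C1 + 2 * |C3|, fun x y => ?_⟩,
    fun B => ?_⟩
  · have := hC3 x
    linarith
  · have h := hC1 (x : JZero N) (y : JZero N) (hfix x) (hfix y)
    have e1 : ((x + y : ↥(JQ N)) : JZero N) = (x : JZero N) + (y : JZero N) := rfl
    have e2 : ((x - y : ↥(JQ N)) : JZero N) = (x : JZero N) - (y : JZero N) := rfl
    simp only [e1, e2]
    have h3 : S.qOf ((x : JZero N) + y) + C3 + (S.qOf ((x : JZero N) - y) + C3)
        - 2 * (S.qOf (x : JZero N) + C3 + (S.qOf (y : JZero N) + C3))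
        = (S.qOf ((x : JZero N) + y) + S.qOf ((x : JZero N) - y)
            - 2 * (S.qOf (x : JZero N) + S.qOf (y : JZero N))) - 2 * C3 := by ring
    rw [h3]
    calc |(S.qOf ((x : JZero N) + y) + S.qOf ((x : JZero N) - y)
            - 2 * (S.qOf (x : JZero N) + S.qOf (y : JZero N))) - 2 * C3|
        ≤ |S.qOf ((x : JZero N) + y) + S.qOf ((x : JZero N) - y)
            - 2 * (S.qOf (x : JZero N) + S.qOf (y : JZero N))| + |2 * C3| := abs_sub _ _
      _ ≤ C1 + 2 * |C3| := by
          rw [abs_mul, abs_two]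
          linarith
  · have := hN (B - C3 + C2)
    refine Set.Finite.of_injOn (f := fun x : ↥(JQ N) => (x : JZero N)) ?_
      (fun a _ b _ hab => Subtype.ext hab) this
    intro x hx
    refine ⟨hfix x, ?_⟩
    have h1 := hC2 (x : JZero N) (hfix x)
    have h2 : S.qOf (x : JZero N) + C3 ≤ B := hx
    show S.hnOf (x : JZero N) ≤ B - C3 + C2
    linarith

end Fermat.Agent.MW.Spec.Assemble7
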