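import Mathlib
import Fermat.Agent.MW.Spec.Assemble7
import Fermat.Agent.MW.Global.Positivity2
import Fermat.Agent.MW.Global.GlobalUD2
import Fermat.Agent.MW.Global.NorthcottTop62
import Fermat.Agent.MW.Global.EpsComparison74
import Fermat.Agent.MW.FF.VeryAmple49

/-!
# MW-H: second-layer assembly (integration check)  (helper2)

`Top7.HeightMain N` from the contracts that are still open on 2026-12-05 03:30Z
(`U = MasterUD`, `HD = HadamardUpper`, `AD = AdjunctionLower`, `P1a`, `P1b`, `QP`), all the
other bricks of the global layer being discharged by the landed theorems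
(`G0` PairBasic2, `G1` GlobalUD2, `A0` HnLower2, `A2` EpsComparison74, `E3` VeryAmple49,
`T1a`/`T1` CoordUpper62 / NorthcottTop62, `P3` Positivity2).  Nothing new is proved here: the file
only checks that the landed pieces fit together literally.
-/

set_option autoImplicit false

open AlgebraicCurve ModularCurve

namespace Fermat.Agent.MW.Spec.Assemble2

open Fermat.Agent.MW.Spec.Bricks7b Fermat.Agent.MW.Top7

section General

variable {F : Type} [Field F] [Algebra Qb F] [HasCanonicalDivisor (K := Qb) (F := F)]
variable (S : HSetup F)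

/-- `G1` from `U`. -/
theorem globalUD (hU : S.MasterUD) : S.GlobalUD :=
  Fermat.Agent.MW.Global.GlobalUD2.globalUD S hU

/-- `A2` from `U`. -/
theorem epsComparison (hU : S.MasterUD) : S.EpsComparison :=
  Fermat.Agent.MW.Global.EpsComparison74.epsComparison S (globalUD S hU)

/-- `T1` from `U` and `P1`. -/
theorem northcottHn (hU : S.MasterUD) (hP1a : S.MinRepExists) (hP1b : S.MinRepStable) :
    S.NorthcottHn :=
  Fermat.Agent.MW.Global.NorthcottTop62.northcottHn_of_masterUD S hU
    (Fermat.Agent.MW.Global.PairBasic2.pairFiniteSupport S)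
    (Fermat.Agent.MW.FF.VeryAmple49.veryAmple S) hP1a hP1b

/-- `P3` from `HD`, `AD` and `P1`. -/
theorem positivity' (hHD : S.HadamardUpper) (hAD : S.AdjunctionLower) (hP1a : S.MinRepExists)
    (hP1b : S.MinRepStable) : S.Positivity :=
  Fermat.Agent.MW.Global.Positivity2.positivityP3 S hHD hAD hP1a hP1b

end General

/-- **Second-layer assembly**: `HeightMain N` from `U`, `HD`, `AD`, `P1a`, `P1b`, `QP`. -/
theorem heightMain_of_second (N : ℕ)
    [HasCanonicalDivisor (K := Qb) (F := ↥(modularFunctionFieldBar N))]
    (S : HSetup ↥(modularFunctionFieldBar N))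
    (hγ : S.γ = arithmeticGalois (modularFunctionFieldFull N))
    (hU : S.MasterUD) (hHD : S.HadamardUpper) (hAD : S.AdjunctionLower)
    (hP1a : S.MinRepExists) (hP1b : S.MinRepStable) (hQP : S.QuasiParallelogram) :
    HeightMain N :=
  Fermat.Agent.MW.Spec.Assemble7.heightMain_of_top N S hγ hQP
    (positivity' S hHD hAD hP1a hP1b) (northcottHn S hU hP1a hP1b)

end Fermat.Agent.MW.Spec.Assemble2
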