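/-
Program MW-H (S17), helper7 (architect).  SPECIFICATION, part 5: THE BRICKS OF THE MASTER THEOREM `U`.

Pinned plan: team report #590.  Mathematics of `U` (final form, see #820 and the plan):
for a section `s = c(x)` of degree `k` (`c` in a monomial basis of `L(k m ∞)`), every place `Q`,
every nice absolute value `v`:

    log |lead_Q s| - log ‖c‖ - k log ‖q‖ + ∑_P Z_s(P) λ_v(P, Q) ∈ [-log C, log C]      (UD'')

with `C` tame.  Proof: for each pencil `π = (ξ, η)` of a fixed finite family of base-point-free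
rational pencils in general position there are polynomial families `Np` (norm, degree `m` in `c`)
and `Sp` (cofactor, degree `m - 1` in `c`) with

    (id1)  ∑_i Np_i(c) X^i = κ ∏_P (ξ(p) X - η(p))^{Z P}              (binary form of the norm)
    (id2)  s · S*(c) = ∑_i Np_i(c) η(x)^i ξ(x)^{km-i}                   (cofactor identity in `F`);

Gauss/Mahler for binary forms (L3), three Nullstellensatz certificates ((α) `Np(c) = 0 ⇒ c = 0`,
(β) pencils have no base point on the cone, (γ) for `c ≠ 0` the cofactors `S*_π(c)` have no common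
zero on the curve) and the pigeonhole for pencils in general position (L2) give both halves.

This file: the general-field standing data `USetup`, pencils, monomial bases, and the contracts
`MonoBasisExists` (UB0), `PencilPackage` (UP = UB1 + UB2 + UB3), `LeadLinear`, `SecValue`,
`ConeMem`, `MinOrdSpec` (UB4), `GenPosBpf` (L2'), `SectionUD` (UD''), and the final `MasterUDU`.
-/
import Mathlib
import Fermat.Agent.MW.Spec.Bricks7b

set_option autoImplicit false

open AlgebraicCurve

namespace Fermat.Agent.MW.Spec.BricksU7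

open Fermat.Agent.MW.Hadamard7 Fermat.Agent.MW.Spec.Defs7 Fermat.Agent.MW.Spec.Contract7
open Fermat.Agent.MW.Spec.Bricks7 Fermat.Agent.X0.FF

noncomputable section

/-! ### Linear forms -/

section Lin

variable {K F : Type*} [Field K] [Field F] [Algebra K F] {n : ℕ}

/-- The linear section `ℓ(x) = ∑ ℓ_b x_b ∈ F`. -/
def lin (ℓ : Fin (n + 1) → K) (x : Fin (n + 1) → F) : F := ∑ b, algebraMap K F (ℓ b) * x b

/-- The value `ℓ(p) = ∑ ℓ_b p_b` of a linear form on a coordinate vector. -/
def dot (ℓ p : Fin (n + 1) → K) : K := ∑ b, ℓ b * p b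

/-- The contraction of the 2-form `ξ ∧ η` with `p`: the linear form `q ↦ ξ(p) η(q) - η(p) ξ(q)`
(so that `dot (contr ξ η p) q = omega ξ η (wedge p q)`). -/
def contr (ξ η p : Fin (n + 1) → K) : Fin (n + 1) → K :=
  fun b => dot ξ p * η b - dot η p * ξ b

/-- The monomial `x^α ∈ F`. -/
def mono (x : Fin (n + 1) → F) (α : Fin (n + 1) → ℕ) : F := ∏ i, x i ^ α i

/-- The monomial `q^α ∈ K`. -/
def monoK (q : Fin (n + 1) → K) (α : Fin (n + 1) → ℕ) : K := ∏ i, q i ^ α i

end Lin

/-! ### Standing data over a general constant field -/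

/-- The standing data of the master theorem: a function field `F / K` with a separating element,
a base point, the embedding tuple `x` = a basis of `L(2 m₀ · inf)` with `x 0 = 1`, uniformisers. -/
structure USetup (K F : Type) [Field K] [Field F] [Algebra K F]
    [HasCanonicalDivisor (K := K) (F := F)] where
  /-- a separating element -/
  u₀ : F
  /-- the base point -/
  inf : Place K F
  /-- half of the degree of the embedding -/
  m₀ : ℕ
  /-- projective dimension of the embedding -/
  n : ℕ
  /-- the embedding tuple -/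
  x : Fin (n + 1) → F
  /-- the uniformisers -/
  t : Place K F → F
  gen : IsGen K u₀
  m₀_large : 2 * genus K F + 1 ≤ m₀
  t_ord : ∀ P : Place K F, P.ord (t P) = 1
  x_zero : x 0 = 1
  x_indep : LinearIndependent K x
  x_span : Submodule.span K (Set.range x) =
    riemannRochSpace (K := K) (F := F) (Finsupp.single inf ((2 * m₀ : ℕ) : ℤ))

/-- The general-field data underlying the global standing data. -/
def ofHSetup {F : Type} [Field F] [Algebra Bricks7b.Qb F]
    [HasCanonicalDivisor (K := Bricks7b.Qb) (F := F)] (S : Bricks7b.HSetup F) :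
    USetup Bricks7b.Qb F where
  u₀ := S.u
  inf := S.inf
  m₀ := S.m₀
  n := S.n
  x := S.x
  t := S.t
  gen := S.gen
  m₀_large := S.m₀_large
  t_ord := S.unif.1
  x_zero := S.x_zero
  x_indep := S.x_indep
  x_span := S.x_span

namespace USetup

variable {K F : Type} [Field K] [Field F] [Algebra K F] [HasCanonicalDivisor (K := K) (F := F)]
variable (U : USetup K F)

/-- The degree of the embedding. -/
def m : ℕ := 2 * U.m₀

/-- Projective coordinates of a place. -/
def pt (P : Place K F) : Fin (U.n + 1) → K := coordAt P (U.t P) U.x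

/-- Tangent vector of a place. -/
def tg (P : Place K F) : Fin (U.n + 1) → K := tangAt P (U.t P) U.x

/-- Sections of degree `k`: `L(k m · inf)`. -/
def R (k : ℕ) : Submodule K F :=
  riemannRochSpace (K := K) (F := F) (Finsupp.single U.inf ((k * U.m : ℕ) : ℤ))

/-- `Z` is the divisor of zeros of the section `s` of degree `k`: `Z = div s + k m · inf`. -/
def IsZeroDiv (k : ℕ) (Z : Divisor K F) (s : F) : Prop :=
  ∀ P : Place K F, Z P = P.ord s + Finsupp.single U.inf ((k * U.m : ℕ) : ℤ) P

/-- A basis of `L(k m · inf)` consisting of monomials of degree `k` in `x`. -/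
structure MonoBasis (k : ℕ) where
  /-- the dimension -/
  ℓ : ℕ
  /-- the exponents -/
  α : Fin ℓ → Fin (U.n + 1) → ℕ
  deg : ∀ j, ∑ i, α j i = k
  indep : LinearIndependent K fun j => mono U.x (α j)
  span : Submodule.span K (Set.range fun j => mono U.x (α j)) = U.R k

variable {U}

/-- The section with coefficient vector `c`. -/
def MonoBasis.sec {k : ℕ} (B : U.MonoBasis k) (c : Fin B.ℓ → K) : F :=
  ∑ j, algebraMap K F (c j) * mono U.x (B.α j)

/-- The value of the form with coefficient vector `c` on a coordinate vector `q`. -/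
def MonoBasis.val {k : ℕ} (B : U.MonoBasis k) (c : Fin B.ℓ → K) (q : Fin (U.n + 1) → K) : K :=
  ∑ j, c j * monoK q (B.α j)

variable (U)

/-- A pencil of linear forms without base point on the curve. -/
structure Pencil where
  /-- first form -/
  ξ : Fin (U.n + 1) → K
  /-- second form -/
  η : Fin (U.n + 1) → K
  ξ_ne : ξ ≠ 0
  bpf : ∀ P : Place K F, dot ξ (U.pt P) ≠ 0 ∨ dot η (U.pt P) ≠ 0

/-! ### The contracts -/

/-- **UB0**: monomial bases exist (from `R1`). -/
def MonoBasisExists : Prop := ∀ k : ℕ, Nonempty (U.MonoBasis k)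

/-- **UP** (pencil package = UB1 + UB2 + UB3; VERSION 2: the same `κ` serves (id1) in `K[X]` and
its homogenised form (id1F) in `F`): for every pencil the norm and its cofactor are
polynomial in the coefficient vector, the binary form of the norm splits over the zeros of the
section, and the cofactor identity (id2) holds in `F`. -/
def PencilPackage : Prop :=
  ∀ (π : U.Pencil) (k : ℕ), 0 < k → ∀ (B : U.MonoBasis k) (B' : U.MonoBasis (k * (U.m - 1))),
    ∃ (Np : Fin (k * U.m + 1) → MvPolynomial (Fin B.ℓ) K)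
      (Sp : Fin B'.ℓ → MvPolynomial (Fin B.ℓ) K),
      (∀ i, (Np i).IsHomogeneous U.m) ∧ (∀ b, (Sp b).IsHomogeneous (U.m - 1)) ∧
      ∀ c : Fin B.ℓ → K, c ≠ 0 → ∀ Z : Divisor K F, U.IsZeroDiv k Z (B.sec c) →
        (∃ κ : K, κ ≠ 0 ∧
          (∑ i : Fin (k * U.m + 1),
              Polynomial.C (MvPolynomial.eval c (Np i)) * Polynomial.X ^ (i : ℕ)) =
            Polynomial.C κ * (Z.prod fun P e =>
              (Polynomial.C (dot π.ξ (U.pt P)) * Polynomial.X
                - Polynomial.C (dot π.η (U.pt P))) ^ e.toNat) ∧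
        (∑ i : Fin (k * U.m + 1), algebraMap K F (MvPolynomial.eval c (Np i)) *
            lin π.η U.x ^ (i : ℕ) * lin π.ξ U.x ^ (k * U.m - (i : ℕ))) =
          algebraMap K F κ * Z.prod fun P e => lin (contr π.ξ π.η (U.pt P)) U.x ^ e.toNat) ∧
        B.sec c * B'.sec (fun b => MvPolynomial.eval c (Sp b)) =
          ∑ i : Fin (k * U.m + 1), algebraMap K F (MvPolynomial.eval c (Np i)) *
            lin π.η U.x ^ (i : ℕ) * lin π.ξ U.x ^ (k * U.m - (i : ℕ))

/-- **UB4z**: a nonzero section of degree `k` has a divisor of zeros: effective of degree `k m`. -/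
def ZeroDivSpec : Prop :=
  ∀ (k : ℕ) (s : F), s ∈ U.R k → s ≠ 0 → ∃ Z : Divisor K F, U.IsZeroDiv k Z s ∧ 0 ≤ Z ∧
    (Z.sum fun _ e => e) = ((k * U.m : ℕ) : ℤ)

/-- **UB4a**: the orders of the coordinate functions: `minOrd = 0` away from `inf`, `= -m` at
`inf`. -/
def MinOrdSpec : Prop :=
  (∀ P : Place K F, P ≠ U.inf → minOrd P U.x = 0) ∧ minOrd U.inf U.x = -(U.m : ℤ)

/-- **UB4b**: order and leading coefficient of a linear section at a place. -/
def LeadLinear : Prop :=
  ∀ (Q : Place K F) (ℓ : Fin (U.n + 1) → K),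
    (dot ℓ (U.pt Q) ≠ 0 →
      Q.ord (lin ℓ U.x) = minOrd Q U.x ∧ leadAt Q (U.t Q) (lin ℓ U.x) = dot ℓ (U.pt Q)) ∧
    (dot ℓ (U.pt Q) = 0 → dot ℓ (U.tg Q) ≠ 0 →
      Q.ord (lin ℓ U.x) = minOrd Q U.x + 1 ∧ leadAt Q (U.t Q) (lin ℓ U.x) = dot ℓ (U.tg Q)) ∧
    (dot ℓ (U.pt Q) = 0 → dot ℓ (U.tg Q) = 0 →
      lin ℓ U.x = 0 ∨ minOrd Q U.x + 2 ≤ Q.ord (lin ℓ U.x))

/-- **UB4c**: order and leading coefficient of a section of degree `k` where it does not vanish. -/
def SecValue : Prop :=
  ∀ (k : ℕ) (B : U.MonoBasis k) (c : Fin B.ℓ → K) (Q : Place K F),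
    (B.sec c ≠ 0 → (k : ℤ) * minOrd Q U.x ≤ Q.ord (B.sec c)) ∧
    (B.val c (U.pt Q) ≠ 0 → Q.ord (B.sec c) = (k : ℤ) * minOrd Q U.x ∧
      leadAt Q (U.t Q) (B.sec c) = B.val c (U.pt Q)) ∧
    (B.val c (U.pt Q) = 0 → B.sec c ≠ 0 → (k : ℤ) * minOrd Q U.x < Q.ord (B.sec c))

/-- **UB4d**: homogeneous relations of `x` vanish at the coordinates of every place. -/
def ConeMem : Prop :=
  ∀ (Q : Place K F) (p : MvPolynomial (Fin (U.n + 1)) K), (∃ k : ℕ, p.IsHomogeneous k) →
    MvPolynomial.aeval U.x p = 0 → MvPolynomial.eval (U.pt Q) p = 0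

/-- **E3** for the general-field data. -/
def VeryAmpleU : Prop :=
  (∀ P : Place K F, U.pt P ≠ 0) ∧
  (∀ P Q : Place K F, P ≠ Q → wedge (U.pt P) (U.pt Q) ≠ 0) ∧
  (∀ P : Place K F, wedge (U.pt P) (U.tg P) ≠ 0)

/-- **L2'**: arbitrarily large families of rational pencils in general position all of whose
members are base point free on the curve. -/
def GenPosBpf [CharZero K] : Prop :=
  ∀ A : ℕ, ∃ (ξ η : Fin A → Fin (U.n + 1) → ℚ) (C : AbsoluteValue K ℝ → ℝ), IsTameConst C ∧
    IsGenPos (fun a i => ((ξ a i : ℚ) : K)) (fun a i => ((η a i : ℚ) : K)) C ∧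
    ∀ a : Fin A, (ξ a ≠ 0) ∧ ∀ P : Place K F,
      dot (fun i => ((ξ a i : ℚ) : K)) (U.pt P) ≠ 0 ∨ dot (fun i => ((η a i : ℚ) : K)) (U.pt P) ≠ 0

/-- **UD''** (the master theorem for sections): for every degree `k` and monomial basis `B` there
is a tame constant such that for every nonzero coefficient vector `c`, zero divisor `Z` of the
section and place `Q`,
`log |lead_Q s| - log ‖c‖ - k log ‖q‖ + ∑_P Z(P) λ_v(P, Q)` lies in `[-log C, log C]`. -/
def SectionUD : Prop :=
  ∀ (k : ℕ), 0 < k → ∀ (B : U.MonoBasis k), ∃ C : AbsoluteValue K ℝ → ℝ, IsTameConst C ∧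
    ∀ v : AbsoluteValue K ℝ, IsNiceAbs v → ∀ c : Fin B.ℓ → K, c ≠ 0 →
      ∀ Z : Divisor K F, U.IsZeroDiv k Z (B.sec c) → ∀ Q : Place K F,
        |Real.log (v (leadAt Q (U.t Q) (B.sec c))) - Real.log (supNorm v c)
            - (k : ℝ) * Real.log (supNorm v (U.pt Q))
            + pairAt v U.x U.t Z (Finsupp.single Q 1)| ≤ Real.log (C v)

/-- **U**: the master theorem for the general-field data. -/
def MasterUDU : Prop := ∀ d : ℤ, UDTame U.x U.t d

end USetup

end

end Fermat.Agent.MW.Spec.BricksU7
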