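import Mathlib
import Fermat.Agent.MW.Spec.Assemble2
import Fermat.Agent.MW.Global.QuasiPar2
import Fermat.Agent.MW.Global.AdjLower49

/-!
# MW-H: third-layer assembly (integration check)  (helper2)

`Top7.HeightMain N` from the contracts that are still open on 2026-12-05 03:35Z:
`U = MasterUD`, `HD = HadamardUpper`, `P1a`, `P1b`, `P1c`.  (`AD` is now `AdjLower49`, `QP` is
`QuasiPar2`.)  Nothing new is proved here: the file only checks that the landed pieces fit together
literally.
-/

set_option autoImplicit false

open AlgebraicCurve ModularCurve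

namespace Fermat.Agent.MW.Spec.Assemble2b

open Fermat.Agent.MW.Spec.Bricks7b Fermat.Agent.MW.Top7

section General

variable {F : Type} [Field F] [Algebra Qb F] [HasCanonicalDivisor (K := Qb) (F := F)]
variable (S : HSetup F)

/-- `T1a` from `U`. -/
theorem coordUpper (hU : S.MasterUD) : S.CoordUpper :=
  Fermat.Agent.MW.Global.CoordUpper62.coordUpper S hU
    (Fermat.Agent.MW.Global.PairBasic2.pairFiniteSupport S)

/-- `AD` from `U`. -/
theorem adjunctionLower (hU : S.MasterUD) : S.AdjunctionLower :=
  Fermat.Agent.MW.Global.AdjLower49.adjunctionLower S hU (coordUpper S hU)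
    (Fermat.Agent.MW.Spec.Assemble2.epsComparison S hU)

/-- `QP` from `U` and `P1`. -/
theorem quasiParallelogram (hU : S.MasterUD) (hP1a : S.MinRepExists) (hP1b : S.MinRepStable)
    (hP1c : S.RationalGenerator) : S.QuasiParallelogram :=
  Fermat.Agent.MW.Global.QuasiPar2.quasiParallelogram S hP1a hP1b hP1c
    (Fermat.Agent.MW.Spec.Assemble2.globalUD S hU)

end General

/-- **Third-layer assembly**: `HeightMain N` from `U`, `HD`, `P1a`, `P1b`, `P1c`. -/
theorem heightMain_of_third (N : ℕ)
    [HasCanonicalDivisor (K := Qb) (F := ↥(modularFunctionFieldBar N))]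
    (S : HSetup ↥(modularFunctionFieldBar N))
    (hγ : S.γ = arithmeticGalois (modularFunctionFieldFull N))
    (hU : S.MasterUD) (hHD : S.HadamardUpper)
    (hP1a : S.MinRepExists) (hP1b : S.MinRepStable) (hP1c : S.RationalGenerator) :
    HeightMain N :=
  Fermat.Agent.MW.Spec.Assemble2.heightMain_of_second N S hγ hU hHD (adjunctionLower S hU)
    hP1a hP1b (quasiParallelogram S hU hP1a hP1b hP1c)

end Fermat.Agent.MW.Spec.Assemble2b
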